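import Mathlib

/-!
# HW1, part 1: the hyperelliptic involution of the function field (S58, block HW)

For a Weierstrass curve `W` over a field `k` (any characteristic, general Weierstrass model) we
construct the `k[X]`-algebra involution `y ↦ -y - a₁ x - a₃` of the coordinate ring
(`invCR`) and of the function field (`invK`).
-/

open Polynomial WeierstrassCurve
open scoped Polynomial.Bivariate

namespace Fermat.Agent.EC.HW1

variable {k : Type*} [Field k] (W : Affine k)

/-- Substituting `-Y - a₁ X - a₃` for `Y` does not change the Weierstrass polynomial. -/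
theorem polynomial_comp_negPolynomial : W.polynomial.comp W.negPolynomial = W.polynomial := by
  simp only [Affine.polynomial, Affine.negPolynomial, sub_comp, add_comp, mul_comp, pow_comp,
    X_comp, C_comp]
  ring

theorem eval₂_negPolynomial :
    W.polynomial.eval₂ (Algebra.ofId k[X] W.CoordinateRing)
      (Affine.CoordinateRing.mk W W.negPolynomial) = 0 := by
  have h : (Algebra.ofId k[X] W.CoordinateRing : k[X] →+* W.CoordinateRing)
      = (Affine.CoordinateRing.mk W).comp C := rfl
  rw [show ((Algebra.ofId k[X] W.CoordinateRing : k[X] →ₐ[k[X]] W.CoordinateRing) :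
      k[X] →+* W.CoordinateRing) = (Affine.CoordinateRing.mk W).comp C from rfl] at *
  rw [← Polynomial.hom_eval₂, ← Polynomial.comp, polynomial_comp_negPolynomial]
  exact AdjoinRoot.mk_self

/-- The involution `y ↦ -y - a₁ x - a₃` of the coordinate ring, as a `k[X]`-algebra map. -/
noncomputable def invCR : W.CoordinateRing →ₐ[k[X]] W.CoordinateRing :=
  AdjoinRoot.liftAlgHom W.polynomial (Algebra.ofId k[X] W.CoordinateRing)
    (Affine.CoordinateRing.mk W W.negPolynomial) (eval₂_negPolynomial W)

theorem invCR_mk_Y :
    invCR W (Affine.CoordinateRing.mk W Y) = Affine.CoordinateRing.mk W W.negPolynomial := by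
  unfold invCR
  rw [AdjoinRoot.liftAlgHom_mk, eval₂_X]

theorem invCR_mk_negPolynomial :
    invCR W (Affine.CoordinateRing.mk W W.negPolynomial) = Affine.CoordinateRing.mk W Y := by
  have hC : ∀ p : k[X], invCR W (Affine.CoordinateRing.mk W (C p))
      = Affine.CoordinateRing.mk W (C p) := fun p => (invCR W).commutes p
  rw [Affine.negPolynomial, map_sub, map_neg, map_sub, map_neg, invCR_mk_Y, hC,
    Affine.negPolynomial, map_sub, map_neg]
  ring

theorem invCR_invCR (z : W.CoordinateRing) : invCR W (invCR W z) = z := by
  have h : (invCR W).comp (invCR W) = AlgHom.id k[X] W.CoordinateRing := by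
    apply AdjoinRoot.algHom_ext
    change invCR W (invCR W (Affine.CoordinateRing.mk W Y)) = Affine.CoordinateRing.mk W Y
    rw [invCR_mk_Y, invCR_mk_negPolynomial]
  exact congrArg (fun f : W.CoordinateRing →ₐ[k[X]] W.CoordinateRing => f z) h

theorem invCR_injective : Function.Injective (invCR W) :=
  Function.LeftInverse.injective (invCR_invCR W)

/-- The function field. -/
abbrev KK : Type _ := W.FunctionField

/-- The composite `k[W] → k[W] → k(W)`. -/
noncomputable def invCRK : W.CoordinateRing →ₐ[k[X]] W.FunctionField :=
  (IsScalarTower.toAlgHom k[X] W.CoordinateRing W.FunctionField).comp (invCR W)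

theorem invCRK_injective : Function.Injective (invCRK W) :=
  (IsFractionRing.injective W.CoordinateRing W.FunctionField).comp (invCR_injective W)

/-- The involution `y ↦ -y - a₁ x - a₃` of the function field, as a `k[X]`-algebra map. -/
noncomputable def invK : W.FunctionField →ₐ[k[X]] W.FunctionField :=
  IsFractionRing.liftAlgHom (g := invCRK W) (invCRK_injective W)

theorem invK_algebraMap (z : W.CoordinateRing) :
    invK W (algebraMap W.CoordinateRing W.FunctionField z)
      = algebraMap W.CoordinateRing W.FunctionField (invCR W z) := by
  unfold invK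
  rw [IsFractionRing.liftAlgHom_apply, IsFractionRing.lift_algebraMap]
  rfl

/-- The generic x-coordinate. -/
noncomputable def xK : W.FunctionField := algebraMap k[X] W.FunctionField X

/-- The generic y-coordinate. -/
noncomputable def yK : W.FunctionField :=
  algebraMap W.CoordinateRing W.FunctionField (Affine.CoordinateRing.mk W Y)

theorem invK_polyX (p : k[X]) :
    invK W (algebraMap k[X] W.FunctionField p) = algebraMap k[X] W.FunctionField p :=
  (invK W).commutes p

theorem invK_xK : invK W (xK W) = xK W := invK_polyX W X

theorem invK_yK :
    invK W (yK W) = -yK W - algebraMap k[X] W.FunctionField (C W.a₁ * X + C W.a₃) := by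
  unfold yK
  rw [invK_algebraMap, invCR_mk_Y, Affine.negPolynomial, map_sub, map_neg, map_sub, map_neg]
  congr 1

theorem invK_invK (z : W.FunctionField) : invK W (invK W z) = z := by
  have h : ((invK W : W.FunctionField →+* W.FunctionField).comp
      (invK W : W.FunctionField →+* W.FunctionField))
      = RingHom.id W.FunctionField := by
    apply IsFractionRing.ringHom_ext (A := W.CoordinateRing)
    intro x
    simp only [RingHom.coe_comp, RingHom.coe_coe, Function.comp_apply, RingHom.id_apply]
    rw [invK_algebraMap, invK_algebraMap, invCR_invCR]
  exact congrArg (fun f : W.FunctionField →+* W.FunctionField => f z) h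

end Fermat.Agent.EC.HW1
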