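import Mathlib
import Fermat.Agent.EC.HW1.Inv
import Fermat.Agent.EC.HWb.Const
import Fermat.Agent.LR.RedFrobCount

/-!
# HW1, part 2: the generic point, the involution on points, odd points (S58, block HW)

`F` a finite field, `k ⊇ F` a field, `W0` an elliptic curve over `F`, `K` the function field of
`W0⁄k`.  We define the generic point `Pgen : (W0⁄K).Point`, the involution `invPt` on
`(W0⁄K).Point` induced by `invK`, show that `invPt` commutes with the Frobenius `frobPt F K W0`
and that `Pgen` is odd (`invPt Pgen = -Pgen`); hence all `frobPt Pgen - n • Pgen` are odd.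
-/

open Polynomial WeierstrassCurve
open scoped Polynomial.Bivariate
open Fermat.Agent.EC.HWb
open Fermat.Agent.LR.RedFrob

namespace Fermat.Agent.EC.HW1

section CR

variable {k : Type*} [Field k] (W : Affine k)

theorem algebraMap_mk_C (p : k[X]) :
    algebraMap W.CoordinateRing W.FunctionField (Affine.CoordinateRing.mk W (C p))
      = algebraMap k[X] W.FunctionField p :=
  (IsScalarTower.algebraMap_apply k[X] W.CoordinateRing W.FunctionField p).symm

/-- The Weierstrass equation for the generic coordinates, in `K`. -/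
theorem generic_equation :
    yK W ^ 2 + algebraMap k[X] W.FunctionField (C W.a₁ * X + C W.a₃) * yK W
      = algebraMap k[X] W.FunctionField (X ^ 3 + C W.a₂ * X ^ 2 + C W.a₄ * X + C W.a₆) := by
  have h0 : Affine.CoordinateRing.mk W (Y ^ 2 + C (C W.a₁ * X + C W.a₃) * Y
      - C (X ^ 3 + C W.a₂ * X ^ 2 + C W.a₄ * X + C W.a₆)) = 0 := AdjoinRoot.mk_self
  have h1 := congrArg (algebraMap W.CoordinateRing W.FunctionField) h0
  rw [map_sub, map_add, map_mul, map_pow, map_sub, map_add, map_mul, map_pow,
    algebraMap_mk_C, algebraMap_mk_C, map_zero] at h1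
  unfold yK
  linear_combination h1

end CR

section Base

variable (F k : Type*) [Field F] [Fintype F] [Field k] [Algebra F k] (W0 : WeierstrassCurve F)

/-- The curve over `k`. -/
abbrev Wk : Affine k := (W0.baseChange k).toAffine

/-- The function field of the curve over `k`. -/
abbrev KF : Type _ := (Wk F k W0).FunctionField

omit [Fintype F] in
theorem algebraMap_poly_C_base (a : F) :
    algebraMap k[X] (KF F k W0) (C (algebraMap F k a)) = algebraMap F (KF F k W0) a := by
  rw [algebraMap_C_eq, ← IsScalarTower.algebraMap_apply]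

omit [Fintype F] in
theorem generic_equation_base :
    (W0.toAffine.baseChange (KF F k W0)).Equation (xK (Wk F k W0)) (yK (Wk F k W0)) := by
  rw [Affine.equation_iff]
  have h := generic_equation (Wk F k W0)
  simp only [map_add, map_mul, map_pow] at h
  simp only [WeierstrassCurve.baseChange, map_a₁, map_a₂, map_a₃, map_a₄, map_a₆,
    algebraMap_poly_C_base] at h
  simp only [Affine.baseChange, WeierstrassCurve.baseChange, map_a₁, map_a₂, map_a₃, map_a₄,
    map_a₆]
  unfold xK
  linear_combination h

instance isElliptic_baseChange_KF [W0.IsElliptic] :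
    (W0.toAffine.baseChange (KF F k W0)).IsElliptic :=
  inferInstanceAs (W0.map (algebraMap F (KF F k W0))).IsElliptic

variable [W0.IsElliptic] [DecidableEq (KF F k W0)]

/-- The generic point of `W0` over the function field of `W0⁄k`. -/
noncomputable def Pgen : (W0.toAffine.baseChange (KF F k W0)).Point :=
  Affine.Point.some (xK (Wk F k W0)) (yK (Wk F k W0))
    (Affine.equation_iff_nonsingular.mp (generic_equation_base F k W0))

/-- The involution of the function field as an `F`-algebra map. -/
noncomputable def invKF : KF F k W0 →ₐ[F] KF F k W0 :=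
  (invK (Wk F k W0)).restrictScalars F

omit [Fintype F] [W0.IsElliptic] [DecidableEq (KF F k W0)] in
theorem invKF_apply (z : KF F k W0) : invKF F k W0 z = invK (Wk F k W0) z := rfl

/-- The involution on points. -/
noncomputable def invPt :
    (W0.toAffine.baseChange (KF F k W0)).Point →+ (W0.toAffine.baseChange (KF F k W0)).Point :=
  Affine.Point.map (W' := W0.toAffine) (invKF F k W0)

omit [Fintype F] [W0.IsElliptic] in
theorem invPt_some {x y : KF F k W0} (h : (W0.toAffine.baseChange (KF F k W0)).Nonsingular x y) :
    ∃ h', invPt F k W0 (Affine.Point.some x y h)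
      = Affine.Point.some (invK (Wk F k W0) x) (invK (Wk F k W0) y) h' :=
  ⟨_, Affine.Point.map_some (W' := W0.toAffine) (invKF F k W0) h⟩

omit [Fintype F] in
/-- The generic point is odd. -/
theorem invPt_Pgen : invPt F k W0 (Pgen F k W0) = -Pgen F k W0 := by
  unfold Pgen invPt
  rw [Affine.Point.map_some, Affine.Point.neg_some]
  congr 1
  · exact invK_xK (Wk F k W0)
  · change invK (Wk F k W0) (yK (Wk F k W0)) = _
    rw [invK_yK, Affine.negY]
    simp only [map_add, map_mul, Affine.baseChange, WeierstrassCurve.baseChange, map_a₁, map_a₃,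
      algebraMap_poly_C_base]
    unfold xK
    ring

omit [W0.IsElliptic] in
/-- The involution commutes with the Frobenius. -/
theorem invPt_frobPt (Q : (W0.toAffine.baseChange (KF F k W0)).Point) :
    invPt F k W0 (frobPt F (KF F k W0) W0 Q) = frobPt F (KF F k W0) W0 (invPt F k W0 Q) := by
  have hcomm : (invKF F k W0).comp (FiniteField.frobeniusAlgHom F (KF F k W0))
      = (FiniteField.frobeniusAlgHom F (KF F k W0)).comp (invKF F k W0) := by
    apply AlgHom.ext
    intro z
    change invKF F k W0 (FiniteField.frobeniusAlgHom F (KF F k W0) z)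
      = FiniteField.frobeniusAlgHom F (KF F k W0) (invKF F k W0 z)
    rw [FiniteField.coe_frobeniusAlgHom]
    exact map_pow _ _ _
  unfold invPt frobPt
  rw [Affine.Point.map_map, Affine.Point.map_map, hcomm]

/-- The odd points: `invPt Q = -Q`. -/
def IsOdd (Q : (W0.toAffine.baseChange (KF F k W0)).Point) : Prop := invPt F k W0 Q = -Q

omit [Fintype F] in
theorem isOdd_Pgen : IsOdd F k W0 (Pgen F k W0) := invPt_Pgen F k W0

variable {F k W0}

omit [Fintype F] [W0.IsElliptic] in
theorem IsOdd.sub {Q R : (W0.toAffine.baseChange (KF F k W0)).Point} (hQ : IsOdd F k W0 Q)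
    (hR : IsOdd F k W0 R) : IsOdd F k W0 (Q - R) := by
  unfold IsOdd at *
  rw [map_sub, hQ, hR, neg_sub']

omit [Fintype F] [W0.IsElliptic] in
theorem IsOdd.zsmul {Q : (W0.toAffine.baseChange (KF F k W0)).Point} (hQ : IsOdd F k W0 Q)
    (n : ℤ) : IsOdd F k W0 (n • Q) := by
  unfold IsOdd at *
  rw [map_zsmul, hQ, zsmul_neg]

theorem IsOdd.frobPt {Q : (W0.toAffine.baseChange (KF F k W0)).Point} (hQ : IsOdd F k W0 Q) :
    IsOdd F k W0 (frobPt F (KF F k W0) W0 Q) := by
  unfold IsOdd at *
  rw [invPt_frobPt, hQ, map_neg]

variable (F k W0) in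
/-- All the points `π Pgen - n • Pgen` are odd. -/
theorem isOdd_frob_sub_zsmul (n : ℤ) :
    IsOdd F k W0 (frobPt F (KF F k W0) W0 (Pgen F k W0) - n • Pgen F k W0) :=
  (isOdd_Pgen F k W0).frobPt.sub ((isOdd_Pgen F k W0).zsmul n)

omit [Fintype F] [W0.IsElliptic] in
/-- The x-coordinate of an odd point is fixed by the involution. -/
theorem IsOdd.invK_x {x y : KF F k W0}
    {h : (W0.toAffine.baseChange (KF F k W0)).Nonsingular x y}
    (hQ : IsOdd F k W0 (Affine.Point.some x y h)) : invK (Wk F k W0) x = x := by
  unfold IsOdd invPt at hQ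
  rw [Affine.Point.map_some, Affine.Point.neg_some, Affine.Point.some.injEq] at hQ
  exact hQ.1

end Base

end Fermat.Agent.EC.HW1
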