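import Mathlib
import Fermat.Agent.EC.HW1.Generic
import Fermat.Agent.EC.HWb.LawGen

/-!
# HW1, part 3: the heights `d n = ptHeight (π Pgen - n • Pgen)` (S58, block HW)

With the hypothesis `hfix` (the fixed field of the involution `invK` is `k(x)`; to be supplied by
`EC/HW/InvFixed.exists_ratio_of_fixed`) we show that all `π Pgen - n • Pgen` have x-coordinate
in `k(x)` and compute
`ptHeight (π Pgen - n • Pgen) = n² - (q + 1 - ptHeight (π Pgen - Pgen)) n + q`.
-/

open Polynomial WeierstrassCurve
open scoped Polynomial.Bivariate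
open Fermat.Agent.EC.HWb
open Fermat.Agent.LR.RedFrob

namespace Fermat.Agent.EC.HW1

variable (F k : Type*) [Field F] [Fintype F] [Field k] [Algebra F k] (W0 : WeierstrassCurve F)

/-- The fixed field of the involution is `k(x)` (hypothesis shape). -/
def FixHyp : Prop :=
  ∀ f : KF F k W0, invK (Wk F k W0) f = f →
    ∃ p n : k[X], n ≠ 0 ∧ f * algebraMap k[X] (KF F k W0) n = algebraMap k[X] (KF F k W0) p

omit [Fintype F] in
theorem algebraMap_injective_KF : Function.Injective (algebraMap k[X] (KF F k W0)) :=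
  FaithfulSMul.algebraMap_injective k[X] (KF F k W0)

omit [Fintype F] in
/-- The curve over `K` obtained from `F` is the one obtained from `k[X]`. -/
theorem baseChange_eq_map_map :
    (W0.toAffine.baseChange (KF F k W0))
      = ((W0.baseChange k).map C).map (algebraMap k[X] (KF F k W0)) := by
  change W0.map (algebraMap F (KF F k W0)) = _
  rw [WeierstrassCurve.baseChange, WeierstrassCurve.map_map, WeierstrassCurve.map_map]
  congr 1

variable [W0.IsElliptic] [DecidableEq (KF F k W0)]

variable {F k W0} in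
omit [Fintype F] [W0.IsElliptic] in
/-- Odd points have their x-coordinate in `k(x)`. -/
theorem IsOdd.isXRat (hfix : FixHyp F k W0)
    {Q : (W0.toAffine.baseChange (KF F k W0)).Point} (hQ : IsOdd F k W0 Q) :
    IsXRat (k := k) Q := by
  rcases Q with _ | ⟨x, y, h⟩
  · exact isXRat_zero
  · obtain ⟨p, n, hn, hx⟩ := hfix x hQ.invK_x
    exact isXRat_some_of_mul_eq (algebraMap_injective_KF F k W0) h p n hn hx

/-- **HW1**: all the points `π Pgen - n • Pgen` have x-coordinate in `k(x)`. -/
theorem isXRat_frob_sub_zsmul (hfix : FixHyp F k W0) (n : ℤ) :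
    IsXRat (k := k) (frobPt F (KF F k W0) W0 (Pgen F k W0) - n • Pgen F k W0) :=
  (isOdd_frob_sub_zsmul F k W0 n).isXRat hfix

omit [Fintype F] [DecidableEq (KF F k W0)] in
theorem xRepBy_Pgen : XRepBy (Pgen F k W0) (![X, 1] : Fin 2 → k[X]) := by
  refine ⟨1, one_ne_zero, ?_⟩
  unfold Pgen
  rw [Affine.Point.xRep_some]
  funext i
  fin_cases i <;> simp [xK]

omit [Fintype F] in
theorem isPrim_X_pow_one (m : ℕ) : IsPrim (![X ^ m, 1] : Fin 2 → k[X]) :=
  (isPrim_pair_iff _).mpr (by simpa using isCoprime_one_right)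

omit [Fintype F] in
theorem pairHeight_X_pow_one (m : ℕ) : pairHeight (![X ^ m, 1] : Fin 2 → k[X]) = m := by
  simp [pairHeight]

omit [Fintype F] [DecidableEq (KF F k W0)] in
theorem ptHeight_Pgen : ptHeight (k := k) (Pgen F k W0) = 1 := by
  have h := ptHeight_eq (algebraMap_injective_KF F k W0) (by simpa using isPrim_X_pow_one (k := k) 1)
    (xRepBy_Pgen F k W0)
  rw [h]
  simpa using pairHeight_X_pow_one (k := k) 1

theorem xRepBy_frob_Pgen :
    XRepBy (frobPt F (KF F k W0) W0 (Pgen F k W0)) (![X ^ Fintype.card F, 1] : Fin 2 → k[X]) := by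
  refine ⟨1, one_ne_zero, ?_⟩
  unfold Pgen frobPt
  rw [Affine.Point.map_some, Affine.Point.xRep_some]
  funext i
  fin_cases i <;> simp [xK]

theorem ptHeight_frob_Pgen :
    ptHeight (k := k) (frobPt F (KF F k W0) W0 (Pgen F k W0)) = Fintype.card F := by
  rw [ptHeight_eq (algebraMap_injective_KF F k W0) (isPrim_X_pow_one (k := k) _)
    (xRepBy_frob_Pgen F k W0)]
  exact pairHeight_X_pow_one (k := k) _

/-- **HW1 + HW4**: the closed form of `d n = ptHeight (π Pgen - n • Pgen)`. -/
theorem ptHeight_frob_sub_zsmul (hfix : FixHyp F k W0) (n : ℤ) :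
    (ptHeight (k := k) (frobPt F (KF F k W0) W0 (Pgen F k W0) - n • Pgen F k W0) : ℤ)
      = n ^ 2 - ((Fintype.card F : ℤ) + 1
          - ptHeight (k := k) (frobPt F (KF F k W0) W0 (Pgen F k W0) - Pgen F k W0)) * n
        + Fintype.card F := by
  have : (W0.baseChange k).IsElliptic := inferInstanceAs (W0.map (algebraMap F k)).IsElliptic
  have h := ptHeight_sub_zsmul_gen (W0.baseChange k) (algebraMap_injective_KF F k W0)
    (W0.toAffine.baseChange (KF F k W0)) (baseChange_eq_map_map F k W0)
    (frobPt F (KF F k W0) W0 (Pgen F k W0)) (Pgen F k W0)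
    ((isOdd_Pgen F k W0).isXRat hfix) (isXRat_frob_sub_zsmul F k W0 hfix) n
  rw [h, ptHeight_Pgen, ptHeight_frob_Pgen]
  push_cast
  ring

end Fermat.Agent.EC.HW1
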