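import Mathlib
import Fermat.Agent.EC.HW1.Main
import Fermat.Agent.EC.HW.InvFixed
import Fermat.Agent.EC.HW.GenericPoint

/-!
# HW1, part 4: unconditional statements, in the vocabulary of `EC/HW/GenericPoint` (S58, block HW)

* `fixHyp` : the hypothesis `FixHyp` of `Main.lean` holds (from `EC/HW/InvFixed`);
* `Pgen_eq_genericPoint` : our generic point is the one of `EC/HW/GenericPoint`;
* `dHW n := ptHeight (π Pgen - n • Pgen)` and `dHW_closed_form`:
  `(dHW n : ℤ) = n² - (q + 1 - dHW 1) n + q` (the `hd` of `EC/HW/ExportSkel.export_star`);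
* `exists_pair_dHW` : a primitive pair `(u, w)` representing `π Pgen - n • Pgen` with
  `max (deg u) (deg w) = dHW n` (input of the fibre count);
* `const_of_dHW_eq_zero` : `dHW n = 0 → π Pgen - n • Pgen` is `0` or has both coordinates in `k`.
-/

open Polynomial WeierstrassCurve
open scoped Polynomial.Bivariate
open Fermat.Agent.EC.HWb
open Fermat.Agent.LR.RedFrob

namespace Fermat.Agent.EC.HW1

variable (F k : Type*) [Field F] [Fintype F] [Field k] [Algebra F k] (W0 : WeierstrassCurve F)
  [W0.IsElliptic]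

omit [Fintype F] in
theorem delta_Wk_ne_zero : (Wk F k W0).Δ ≠ 0 := by
  have : (W0.baseChange k).IsElliptic := inferInstanceAs (W0.map (algebraMap F k)).IsElliptic
  exact (W0.baseChange k).isUnit_Δ.ne_zero

omit [Fintype F] in
/-- The fixed field of the involution is `k(x)`. -/
theorem fixHyp : FixHyp F k W0 := by
  intro f hf
  exact Fermat.Agent.EC.HW.InvFixed.exists_ratio_of_fixed (Wk F k W0)
    ((invK (Wk F k W0) : KF F k W0 →ₐ[k[X]] KF F k W0) : KF F k W0 →+* KF F k W0)
    (fun p => invK_polyX (Wk F k W0) p) (invK_yK (Wk F k W0)) (delta_Wk_ne_zero F k W0) hf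

variable [DecidableEq (KF F k W0)]

omit [Fintype F] [DecidableEq (KF F k W0)] in
/-- Our generic point is the generic point of `EC/HW/GenericPoint`. -/
theorem Pgen_eq_genericPoint :
    Pgen F k W0 = Fermat.Agent.EC.HW.GenericPoint.genericPoint W0 k := rfl

/-- `d n`, the height of `π Pgen - n • Pgen`. -/
noncomputable def dHW (n : ℤ) : ℕ :=
  ptHeight (k := k) (frobPt F (KF F k W0) W0 (Pgen F k W0) - n • Pgen F k W0)

/-- **HW1 + HW4**: the closed form, in the `hd` shape of `ExportSkel.export_star` with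
`a' = q + 1 - d 1`. -/
theorem dHW_closed_form (n : ℤ) :
    (dHW F k W0 n : ℤ)
      = n ^ 2 - ((Fintype.card F : ℤ) + 1 - dHW F k W0 1) * n + Fintype.card F := by
  have h := ptHeight_frob_sub_zsmul F k W0 (fixHyp F k W0) n
  unfold dHW
  rw [one_zsmul]
  exact h

/-- A primitive pair representing `π Pgen - n • Pgen`, of height `dHW n`. -/
theorem exists_pair_dHW (n : ℤ) :
    ∃ p : Fin 2 → k[X], IsCoprime (p 0) (p 1) ∧
      max (p 0).natDegree (p 1).natDegree = dHW F k W0 n ∧
      XRepBy (frobPt F (KF F k W0) W0 (Pgen F k W0) - n • Pgen F k W0) p := by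
  obtain ⟨p, hp, hQ⟩ := isXRat_frob_sub_zsmul F k W0 (fixHyp F k W0) n
  refine ⟨p, (isPrim_pair_iff p).mp hp, ?_, hQ⟩
  unfold dHW
  rw [ptHeight_eq (algebraMap_injective_KF F k W0) hp hQ]
  rfl

/-- The degenerate case: if `dHW n = 0` then `π Pgen - n • Pgen` is `0` or constant. -/
theorem const_of_dHW_eq_zero [IsAlgClosed k] (n : ℤ) (h0 : dHW F k W0 n = 0) :
    frobPt F (KF F k W0) W0 (Pgen F k W0) - n • Pgen F k W0 = 0 ∨
      ∃ (a b : k) (h : (W0.toAffine.baseChange (KF F k W0)).Nonsingular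
          (algebraMap k (KF F k W0) a) (algebraMap k (KF F k W0) b)),
        frobPt F (KF F k W0) W0 (Pgen F k W0) - n • Pgen F k W0
          = Affine.Point.some (algebraMap k (KF F k W0) a) (algebraMap k (KF F k W0) b) h := by
  rcases eq_zero_or_const_of_ptHeight_eq_zero (algebraMap_injective_KF F k W0)
    (isXRat_frob_sub_zsmul F k W0 (fixHyp F k W0) n) h0 with h | ⟨a, y, h, hQ⟩
  · exact Or.inl h
  · right
    obtain ⟨b, hb⟩ := exists_y_const (W0.baseChange k) a y h.1
    subst hb
    exact ⟨a, b, h, hQ⟩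

end Fermat.Agent.EC.HW1
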